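import Mathlib
import Fermat.Prelude.Def_ModularCurve_ModularUnit

/-!
# S16, UPPER, package ARITH (the `κ`-lemma)

For a prime `p ≥ 5` put `n = eisensteinNumerator p = (p - 1) / gcd (p - 1, 12)` and
`κ = (p + 1) * gcd (p - 1, 12) / 24`.  Then `(p ^ 2 - 1) / 24 = n * κ`, and every prime
`l ∣ κ` lies in one of the three classes
* (a) `5 ≤ l` and `l ∣ p + 1`,
* (b) `l = 3` and `9 ∣ p + 1`,
* (c) `l = 2` and `8 ∣ p + 1`.

Consequently: if `24 * m ∣ p ^ 2 - 1` and no prime of the classes (a), (b), (c) divides `m`,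
then `m ∣ eisensteinNumerator p`.
-/

set_option autoImplicit false

namespace Fermat.Agent.S16.H35

open ModularCurve

/-- The cofactor `κ` with `(p ^ 2 - 1) / 24 = eisensteinNumerator p * κ`. -/
def kappa (p : ℕ) : ℕ := (p + 1) * Nat.gcd (p - 1) 12 / 24

/-- A prime `p ≥ 5` is `1, 5, 7` or `11` modulo `12`. -/
theorem prime_mod_twelve {p : ℕ} (hp : p.Prime) (h5 : 5 ≤ p) :
    p % 12 = 1 ∨ p % 12 = 5 ∨ p % 12 = 7 ∨ p % 12 = 11 := by
  have h2 : ¬ 2 ∣ p := fun h => by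
    have := (Nat.prime_dvd_prime_iff_eq Nat.prime_two hp).mp h
    omega
  have h3 : ¬ 3 ∣ p := fun h => by
    have := (Nat.prime_dvd_prime_iff_eq Nat.prime_three hp).mp h
    omega
  omega

/-- Explicit values of `eisensteinNumerator p` and `kappa p` in the four classes. -/
theorem numerator_kappa_cases {p : ℕ} (hp : p.Prime) (h5 : 5 ≤ p) :
    ∃ k : ℕ,
      (p = 12 * k + 1 ∧ eisensteinNumerator p = k ∧ kappa p = 6 * k + 1) ∨
      (p = 12 * k + 5 ∧ eisensteinNumerator p = 3 * k + 1 ∧ kappa p = 2 * k + 1) ∨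
      (p = 12 * k + 7 ∧ eisensteinNumerator p = 2 * k + 1 ∧ kappa p = 3 * k + 2) ∨
      (p = 12 * k + 11 ∧ eisensteinNumerator p = 6 * k + 5 ∧ kappa p = k + 1) := by
  refine ⟨p / 12, ?_⟩
  have hdm := Nat.div_add_mod p 12
  set k := p / 12 with hk
  rcases prime_mod_twelve hp h5 with h | h | h | h
  · left
    have hpe : p = 12 * k + 1 := by omega
    have hg : Nat.gcd (p - 1) 12 = 12 := by
      have : p - 1 = 12 * k := by omega
      rw [this]
      exact Nat.gcd_eq_right (Dvd.intro _ rfl)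
    refine ⟨hpe, ?_, ?_⟩
    · unfold eisensteinNumerator
      rw [hg]
      omega
    · unfold kappa
      rw [hg]
      omega
  · right; left
    have hpe : p = 12 * k + 5 := by omega
    have hg : Nat.gcd (p - 1) 12 = 4 := by
      have e : p - 1 = 4 * (3 * k + 1) := by omega
      rw [e, show (12 : ℕ) = 4 * 3 from rfl, Nat.gcd_mul_left]
      have : Nat.gcd (3 * k + 1) 3 = 1 := by
        rw [Nat.gcd_comm, Nat.gcd_rec]
        have : (3 * k + 1) % 3 = 1 := by omega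
        rw [this]
        rfl
      rw [this]
    refine ⟨hpe, ?_, ?_⟩
    · unfold eisensteinNumerator
      rw [hg]
      omega
    · unfold kappa
      rw [hg]
      omega
  · right; right; left
    have hpe : p = 12 * k + 7 := by omega
    have hg : Nat.gcd (p - 1) 12 = 6 := by
      have e : p - 1 = 6 * (2 * k + 1) := by omega
      rw [e, show (12 : ℕ) = 6 * 2 from rfl, Nat.gcd_mul_left]
      have : Nat.gcd (2 * k + 1) 2 = 1 := by
        rw [Nat.gcd_comm, Nat.gcd_rec]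
        have : (2 * k + 1) % 2 = 1 := by omega
        rw [this]
        rfl
      rw [this]
    refine ⟨hpe, ?_, ?_⟩
    · unfold eisensteinNumerator
      rw [hg]
      omega
    · unfold kappa
      rw [hg]
      omega
  · right; right; right
    have hpe : p = 12 * k + 11 := by omega
    have hg : Nat.gcd (p - 1) 12 = 2 := by
      have e : p - 1 = 2 * (6 * k + 5) := by omega
      rw [e, show (12 : ℕ) = 2 * 6 from rfl, Nat.gcd_mul_left]
      have : Nat.gcd (6 * k + 5) 6 = 1 := by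
        rw [Nat.gcd_comm, Nat.gcd_rec]
        have : (6 * k + 5) % 6 = 5 := by omega
        rw [this]
        rfl
      rw [this]
    refine ⟨hpe, ?_, ?_⟩
    · unfold eisensteinNumerator
      rw [hg]
      omega
    · unfold kappa
      rw [hg]
      omega

/-- `p ^ 2 - 1 = 24 * (eisensteinNumerator p * kappa p)` for a prime `p ≥ 5`. -/
theorem sq_sub_one_eq {p : ℕ} (hp : p.Prime) (h5 : 5 ≤ p) :
    p ^ 2 - 1 = 24 * (eisensteinNumerator p * kappa p) := by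
  obtain ⟨k, h | h | h | h⟩ := numerator_kappa_cases hp h5 <;>
  · obtain ⟨hpe, hn, hκ⟩ := h
    rw [hn, hκ, hpe]
    have : 1 ≤ (12 * k + 1) ^ 2 ∧ 1 ≤ (12 * k + 5) ^ 2 ∧ 1 ≤ (12 * k + 7) ^ 2 ∧
        1 ≤ (12 * k + 11) ^ 2 := ⟨Nat.one_le_pow _ _ (by omega), Nat.one_le_pow _ _ (by omega),
      Nat.one_le_pow _ _ (by omega), Nat.one_le_pow _ _ (by omega)⟩
    zify [this.1, this.2.1, this.2.2.1, this.2.2.2]
    ring

/-- The integer form: `(p : ℤ) ^ 2 - 1 = 24 * (eisensteinNumerator p * kappa p)`. -/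
theorem sq_sub_one_eq_int {p : ℕ} (hp : p.Prime) (h5 : 5 ≤ p) :
    (p : ℤ) ^ 2 - 1 = 24 * ((eisensteinNumerator p : ℤ) * (kappa p : ℤ)) := by
  have h := sq_sub_one_eq hp h5
  have h1 : 1 ≤ p ^ 2 := Nat.one_le_pow _ _ hp.pos
  have h2 : ((p ^ 2 - 1 : ℕ) : ℤ) = (p : ℤ) ^ 2 - 1 := by
    push_cast [h1]
    ring
  rw [← h2, h]
  push_cast
  ring

/-- **The `κ`-lemma.**  Every prime divisor of `kappa p` is in class (a), (b) or (c). -/
theorem prime_dvd_kappa_cases {p l : ℕ} (hp : p.Prime) (h5 : 5 ≤ p) (hl : l.Prime)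
    (h : l ∣ kappa p) :
    (5 ≤ l ∧ l ∣ p + 1) ∨ (l = 3 ∧ 9 ∣ p + 1) ∨ (l = 2 ∧ 8 ∣ p + 1) := by
  have hl2 := hl.two_le
  have hsmall : l = 2 ∨ l = 3 ∨ 5 ≤ l := by
    by_contra hcon
    have h4 : l = 4 := by omega
    rw [h4] at hl
    exact absurd hl (by decide)
  obtain ⟨k, hc | hc | hc | hc⟩ := numerator_kappa_cases hp h5
  · -- `p = 12 k + 1`, `κ = 6 k + 1`, `p + 1 = 2 κ`
    obtain ⟨hpe, -, hκ⟩ := hc
    rw [hκ] at h
    have hp1 : p + 1 = 2 * (6 * k + 1) := by omega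
    have hdvd : l ∣ p + 1 := hp1 ▸ Dvd.dvd.mul_left h 2
    rcases hsmall with rfl | rfl | h5l
    · omega
    · omega
    · exact Or.inl ⟨h5l, hdvd⟩
  · -- `p = 12 k + 5`, `κ = 2 k + 1`, `p + 1 = 6 κ`
    obtain ⟨hpe, -, hκ⟩ := hc
    rw [hκ] at h
    have hp1 : p + 1 = 6 * (2 * k + 1) := by omega
    have hdvd : l ∣ p + 1 := hp1 ▸ Dvd.dvd.mul_left h 6
    rcases hsmall with rfl | rfl | h5l
    · omega
    · exact Or.inr (Or.inl ⟨rfl, by omega⟩)
    · exact Or.inl ⟨h5l, hdvd⟩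
  · -- `p = 12 k + 7`, `κ = 3 k + 2`, `p + 1 = 4 κ`
    obtain ⟨hpe, -, hκ⟩ := hc
    rw [hκ] at h
    have hp1 : p + 1 = 4 * (3 * k + 2) := by omega
    have hdvd : l ∣ p + 1 := hp1 ▸ Dvd.dvd.mul_left h 4
    rcases hsmall with rfl | rfl | h5l
    · exact Or.inr (Or.inr ⟨rfl, by omega⟩)
    · omega
    · exact Or.inl ⟨h5l, hdvd⟩
  · -- `p = 12 k + 11`, `κ = k + 1`, `p + 1 = 12 κ`
    obtain ⟨hpe, -, hκ⟩ := hc
    rw [hκ] at h
    have hp1 : p + 1 = 12 * (k + 1) := by omega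
    have hdvd : l ∣ p + 1 := hp1 ▸ Dvd.dvd.mul_left h 12
    rcases hsmall with rfl | rfl | h5l
    · exact Or.inr (Or.inr ⟨rfl, by omega⟩)
    · exact Or.inr (Or.inl ⟨rfl, by omega⟩)
    · exact Or.inl ⟨h5l, hdvd⟩

/-- **ARITH, natural-number form.**  If `m ∣ (p ^ 2 - 1) / 24` (stated as
`24 * m ∣ p ^ 2 - 1`) and `m` is divisible by no prime of the classes
(a) `l ≥ 5, l ∣ p + 1`, (b) `l = 3, 9 ∣ p + 1`, (c) `l = 2, 8 ∣ p + 1`,
then `m ∣ eisensteinNumerator p`. -/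
theorem dvd_eisensteinNumerator_of_dvd {p : ℕ} (hp : p.Prime) (h5 : 5 ≤ p) (m : ℕ)
    (hm : 24 * m ∣ p ^ 2 - 1)
    (ha : ∀ l : ℕ, l.Prime → 5 ≤ l → l ∣ p + 1 → ¬ l ∣ m)
    (hb : 9 ∣ p + 1 → ¬ 3 ∣ m)
    (hc : 8 ∣ p + 1 → ¬ 2 ∣ m) :
    m ∣ eisensteinNumerator p := by
  rw [sq_sub_one_eq hp h5] at hm
  have hm' : m ∣ eisensteinNumerator p * kappa p := Nat.dvd_of_mul_dvd_mul_left (by norm_num) hm
  have hcop : Nat.Coprime m (kappa p) := by
    rw [Nat.coprime_iff_gcd_eq_one]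
    by_contra hne
    obtain ⟨l, hl, hlg⟩ := Nat.exists_prime_and_dvd hne
    have hlm : l ∣ m := hlg.trans (Nat.gcd_dvd_left _ _)
    have hlκ : l ∣ kappa p := hlg.trans (Nat.gcd_dvd_right _ _)
    rcases prime_dvd_kappa_cases hp h5 hl hlκ with ⟨h5l, hd⟩ | ⟨rfl, h9⟩ | ⟨rfl, h8⟩
    · exact ha l hl h5l hd hlm
    · exact hb h9 hlm
    · exact hc h8 hlm
  exact hcop.dvd_of_dvd_mul_right hm'

/-- **ARITH, integer form.** -/
theorem int_dvd_eisensteinNumerator_of_dvd {p : ℕ} (hp : p.Prime) (h5 : 5 ≤ p) (m : ℤ)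
    (hm : 24 * m ∣ (p : ℤ) ^ 2 - 1)
    (ha : ∀ l : ℕ, l.Prime → 5 ≤ l → l ∣ p + 1 → ¬ (l : ℤ) ∣ m)
    (hb : 9 ∣ p + 1 → ¬ (3 : ℤ) ∣ m)
    (hc : 8 ∣ p + 1 → ¬ (2 : ℤ) ∣ m) :
    m ∣ (eisensteinNumerator p : ℤ) := by
  have h1 : 1 ≤ p ^ 2 := Nat.one_le_pow _ _ hp.pos
  have key : m.natAbs ∣ eisensteinNumerator p := by
    refine dvd_eisensteinNumerator_of_dvd hp h5 m.natAbs ?_ ?_ ?_ ?_
    · have h2 : ((p ^ 2 - 1 : ℕ) : ℤ) = (p : ℤ) ^ 2 - 1 := by
        push_cast [h1]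
        ring
      have h3 : ((24 * m.natAbs : ℕ) : ℤ) ∣ ((p ^ 2 - 1 : ℕ) : ℤ) := by
        rw [h2]
        push_cast
        rw [show (24 : ℤ) * |m| = |24 * m| by rw [abs_mul]; norm_num, abs_dvd]
        exact hm
      exact Int.natCast_dvd_natCast.mp h3
    · intro l hl h5l hd hlm
      exact ha l hl h5l hd (Int.natCast_dvd.mpr hlm)
    · intro h9 h3
      exact hb h9 (by
        have := Int.natCast_dvd.mpr h3
        simpa using this)
    · intro h8 h2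
      exact hc h8 (by
        have := Int.natCast_dvd.mpr h2
        simpa using this)
  exact Int.natAbs_dvd_natAbs.mp (by simpa using key)

end Fermat.Agent.S16.H35
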